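/-
CELL-B / CASE A, node A1 (helper25), layer 0: the SWAP symmetry of the reduced-lattice package.
Mathlib + `GK/Glue/{GlueCore,GlueFrob}` only.

On top of helper47's `LamData` (`GK/Glue/GlueCore.lean`) and helper40's `LamData.SemiSymm`
(`GK/Glue/GlueFrob.lean`):

* `SwapSymm D` : a symmetry of the reduced-lattice package which EXCHANGES the two components
  (the shadow of the Atkin–Lehner involution `W_q` at `q ∥ N`): maps `S12 : R1 → R2`,
  `S21 : R2 → R1` of the coordinate rings, a permutation `π` of the nodes, the action `s` on the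
  admissible units, with `e2 (π x) (S12 a) = e1 x a`, `e1 (π x) (S21 b) = e2 x b` and
  `(S21 z₂, S12 z₁) ∈ Lam (s y) n` for `(z₁, z₂) ∈ Lam y n`;
* `xi_swap` : `ξ(s y)(π x) · ξ(y)(x) = 1` — the swap INVERTS the glueing constants (it reverses the
  orientation of every edge of the dual graph);
* `xi_frob_swap` : for a Frobenius semilinear symmetry `T` (`fk c = c ^ q`) whose node permutation
  is inverse to that of the swap, `ξ(T.s (W.s y) · y ^ q) = 1`;
* `one_mem_Lam_frob_swap` : hence `(1, 1) ∈ Lam (T.s (W.s y) · y ^ q) n` for `n ≥ n0` — the input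
  of Claim 2, which turns it into `φ (W y) · y ^ q = constant · m-th power`, i.e.
  `φ ∘ W = -q` on the toric part.
-/
import Fermat.Agent.GK.Glue.GlueFrob

set_option autoImplicit false

namespace Fermat.Agent.GB.A1

open Module Fermat.Agent.GK.Glue

variable {k : Type*} [Field k] {R1 R2 : Type*} [CommRing R1] [Algebra k R1]
  [CommRing R2] [Algebra k R2] {ι : Type*} [Fintype ι] {Y : Type*} [CommGroup Y] {m : ℕ}
  (D : LamData k R1 R2 ι Y m)

/-- A **swap symmetry** of the reduced-lattice package: a symmetry exchanging the two components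
(the shadow of the Atkin–Lehner involution). -/
structure SwapSymm where
  /-- the induced map from the first coordinate ring to the second -/
  S12 : R1 → R2
  /-- the induced map from the second coordinate ring to the first -/
  S21 : R2 → R1
  /-- the induced permutation of the nodes -/
  π : Equiv.Perm ι
  /-- the action on the admissible units -/
  s : Y → Y
  e2_S : ∀ x a, D.e2 (π x) (S12 a) = D.e1 x a
  e1_S : ∀ x b, D.e1 (π x) (S21 b) = D.e2 x b
  map_Lam : ∀ y n, ∀ z ∈ D.Lam y n, (S21 z.2, S12 z.1) ∈ D.Lam (s y) n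

variable {D}
variable [Infinite k] [DecidableEq ι]

/-- **The swap inverts the glueing constants**: `ξ(s y)(π x) · ξ(y)(x) = 1`. -/
theorem xi_swap (W : SwapSymm D) (y : Y) (n : ℕ) (hn : D.n0 ≤ n) (x : ι) :
    D.xi (W.s y) n (W.π x) * D.xi y n x = 1 := by
  obtain ⟨a, ha, ha2⟩ := D.exists_mem_Lam_eq_one y n hn
  have ha' := W.map_Lam y n a ha
  have h1 := ((D.xi_spec (W.s y) n hn _).1 ha').2.2 (W.π x)
  have h2 := ((D.xi_spec y n hn a).1 ha).2.2 x
  rw [ha2 x, mul_one] at h2
  have h3 : D.e1 (W.π x) (W.S21 a.2) = 1 := by rw [W.e1_S, ha2 x]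
  have h4 : D.e2 (W.π x) (W.S12 a.1) = D.xi y n x := by rw [W.e2_S, h2]
  change D.e1 (W.π x) (W.S21 a.2) = D.xi (W.s y) n (W.π x) * D.e2 (W.π x) (W.S12 a.1) at h1
  rw [h3, h4] at h1
  exact h1.symm

/-- **Frobenius composed with the swap on the glueing constants**: if `fk` is the `q`-power map and
the node permutations of `T` and `W` are inverse to each other, then
`ξ(T.s (W.s y) · y ^ q) = 1`. -/
theorem xi_frob_swap (T : D.SemiSymm) (W : SwapSymm D) (q : ℕ) (hq : ∀ c, T.fk c = c ^ q)
    (hπ : ∀ x, T.π (W.π x) = x) (y : Y) (n : ℕ) (hn : D.n0 ≤ n) :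
    D.xi (T.s (W.s y) * y ^ q) n = 1 := by
  funext x
  have h1 := D.xi_semilinear T (W.s y) n hn (W.π x)
  rw [hπ x, hq] at h1
  rw [D.xi_mul' _ _ n hn, D.xi_pow_nat y q n hn, Pi.mul_apply, Pi.pow_apply, h1, ← mul_pow,
    xi_swap W y n hn x, one_pow, Pi.one_apply]

/-- **lattice form**: the constant pair `(1, 1)` lies in the reduced lattice of
`T.s (W.s y) · y ^ q` — the input of Claim 2. -/
theorem one_mem_Lam_frob_swap (T : D.SemiSymm) (W : SwapSymm D) (q : ℕ)
    (hq : ∀ c, T.fk c = c ^ q) (hπ : ∀ x, T.π (W.π x) = x) (y : Y) (n : ℕ) (hn : D.n0 ≤ n) :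
    ((1 : R1), (1 : R2)) ∈ D.Lam (T.s (W.s y) * y ^ q) n :=
  D.one_mem_Lam_of_xi _ n hn (xi_frob_swap T W q hq hπ y n hn)

end Fermat.Agent.GB.A1
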