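/-
CELL-B / CASE A, node A1 (helper25), layer 1: `φ ∘ W = -q` on admissible units, abstract half.

From the swap symmetry of the glueing constants (`GB/A1/GlueSwap.lean`) and Claim 2 in the consumer
form of helper47's `ssPackageOfLam` (`GK/SS/PackageOfLam.lean`), exactly as helper40's
`GK/SS/FrobSq.lean` does for `φ² = q²`:

* `frob_swap_eq_of_claim2` : `φ (W z) · z ^ q = c · w ^ m` for every admissible unit `z`
  (abstract group form);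
* `frob_swap_units` : the same for `F_N = ℚ̄(X₀(N))`, `galUnits N φ` and `autUnits Wa`;
* `frob_swap_kum` : `gal φ (autEnd Wa [z]) = -(q • [z])` in `Kum_m(F_N)` for admissible
  `m`-divisible `z`.
-/
import Fermat.Agent.GB.A1.GlueSwap
import Fermat.Agent.GK.SS.FrobSq
import Fermat.Agent.GK.UqKroneckerU

set_option autoImplicit false

namespace Fermat.Agent.GB.A1

open Fermat.Agent.GJ.KumGroup Fermat.Agent.GJ.Kum.KumType Fermat.Agent.GK.Tate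
open Fermat.Agent.GK.Glue Fermat.Agent.GK.SS Fermat.Agent.GK.UqKronecker ModularCurve

/-- `ℚ̄`. -/
local notation "Qb" => AlgebraicClosure ℚ

section Abstract

variable {k : Type*} [Field k] [Infinite k] {R1 R2 : Type*} [CommRing R1] [Algebra k R1]
  [CommRing R2] [Algebra k R2] {ι : Type*} [Fintype ι] [DecidableEq ι]

/-- **`φ ∘ W = -q`, abstract unit form.**  `U ≤ Fx` the admissible units, `act` a Frobenius lift
and `wact` the swap acting on `Fx`, `T` the induced semilinear symmetry (`fk = (·)^q`), `W` the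
induced swap symmetry, `T.π ∘ W.π = 1` on the nodes, Claim 2 in the consumer form of
`ssPackageOfLam`.  Then `φ (W z) · z ^ q = c · w ^ m` for every `z ∈ U`. -/
theorem frob_swap_eq_of_claim2 {Fx : Type*} [CommGroup Fx] {m : ℕ} (U Cst : Subgroup Fx)
    (D : LamData k R1 R2 ι ↥U m) (act wact : Fx →* Fx) (T : D.SemiSymm) (W : SwapSymm D)
    (hs : ∀ z : U, ((T.s z : U) : Fx) = act (z : Fx))
    (hw : ∀ z : U, ((W.s z : U) : Fx) = wact (z : Fx))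
    (q : ℕ) (hq : ∀ c, T.fk c = c ^ q) (hπ : ∀ x, T.π (W.π x) = x)
    (hclaim2 : ∀ z : U, (∃ n, D.n0 ≤ n ∧ ((1 : R1), (1 : R2)) ∈ D.Lam z n) →
      ∃ c ∈ Cst, ∃ w : Fx, (z : Fx) = c * w ^ m)
    (z : U) : ∃ c ∈ Cst, ∃ w : Fx, act (wact (z : Fx)) * (z : Fx) ^ q = c * w ^ m := by
  obtain ⟨c, hc, w, hcw⟩ := hclaim2 (T.s (W.s z) * z ^ q)
    ⟨D.n0, le_rfl, one_mem_Lam_frob_swap T W q hq hπ z D.n0 le_rfl⟩
  refine ⟨c, hc, w, ?_⟩
  rw [← hcw, Subgroup.coe_mul, Subgroup.coe_pow, hs, hw]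

end Abstract

section Modular

variable {N : ℕ} [NeZero N] {m : ℕ}
variable {k : Type*} [Field k] [Infinite k] {R1 R2 : Type*} [CommRing R1] [Algebra k R1]
  [CommRing R2] [Algebra k R2] {ι : Type*} [Fintype ι] [DecidableEq ι]

omit [NeZero N] in
/-- **`φ ∘ W = -q`, unit form for `F_N`**. -/
theorem frob_swap_units (U : Subgroup (FK N)ˣ) (D : LamData k R1 R2 ι ↥U m)
    (φ : Qb ≃ₐ[ℚ] Qb) (Wa : FK N ≃ₐ[Qb] FK N) (T : D.SemiSymm) (W : SwapSymm D)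
    (hs : ∀ z : U, ((T.s z : U) : (FK N)ˣ) = galUnits N φ (z : (FK N)ˣ))
    (hw : ∀ z : U, ((W.s z : U) : (FK N)ˣ) = autUnits Wa (z : (FK N)ˣ))
    (q : ℕ) (hq : ∀ c, T.fk c = c ^ q) (hπ : ∀ x, T.π (W.π x) = x)
    (hclaim2 : ∀ z : U, (∃ n, D.n0 ≤ n ∧ ((1 : R1), (1 : R2)) ∈ D.Lam z n) →
      ∃ c ∈ cstUnits N, ∃ w : (FK N)ˣ, (z : (FK N)ˣ) = c * w ^ m)
    (z : U) : ∃ c ∈ cstUnits N, ∃ w : (FK N)ˣ,
      galUnits N φ (autUnits Wa (z : (FK N)ˣ)) * (z : (FK N)ˣ) ^ q = c * w ^ m :=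
  frob_swap_eq_of_claim2 U (cstUnits N) D (galUnits N φ) (autUnits Wa) T W hs hw q hq hπ hclaim2 z

omit [NeZero N] in
/-- **`φ ∘ W = -q`, Kummer form**: `gal φ (W [z]) = -(q • [z])` in `Kum_m(F_N)` for every admissible
`m`-divisible unit `z`. -/
theorem frob_swap_kum (hm : m ≠ 0) (U : Subgroup (FK N)ˣ) (D : LamData k R1 R2 ι ↥U m)
    (φ : Qb ≃ₐ[ℚ] Qb) (Wa : FK N ≃ₐ[Qb] FK N) (T : D.SemiSymm) (W : SwapSymm D)
    (hs : ∀ z : U, ((T.s z : U) : (FK N)ˣ) = galUnits N φ (z : (FK N)ˣ))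
    (hw : ∀ z : U, ((W.s z : U) : (FK N)ˣ) = autUnits Wa (z : (FK N)ˣ))
    (q : ℕ) (hq : ∀ c, T.fk c = c ^ q) (hπ : ∀ x, T.π (W.π x) = x)
    (hclaim2 : ∀ z : U, (∃ n, D.n0 ≤ n ∧ ((1 : R1), (1 : R2)) ∈ D.Lam z n) →
      ∃ c ∈ cstUnits N, ∃ w : (FK N)ˣ, (z : (FK N)ˣ) = c * w ^ m)
    (z : U) (hz : (z : (FK N)ˣ) ∈ pDivUnits Qb (FK N) m) :
    gal N m φ (autEnd Wa m (Additive.ofMul (Kum.mk ⟨(z : (FK N)ˣ), hz⟩))) =
      -(q • (Additive.ofMul (Kum.mk ⟨(z : (FK N)ˣ), hz⟩) : Additive (Kum Qb (FK N) m))) := by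
  obtain ⟨c, hc, w, hcw⟩ := frob_swap_units U D φ Wa T W hs hw q hq hπ hclaim2 z
  obtain ⟨d, hd⟩ := cstUnits_pow hm c hc
  rw [eq_neg_iff_add_eq_zero, autEnd_mk, gal_mk, ← ofMul_pow, ← map_pow, ← ofMul_mul, ← map_mul]
  have h0 : (0 : Additive (Kum Qb (FK N) m)) =
      Additive.ofMul (Kum.mk (1 : pDivUnits Qb (FK N) m)) := by
    rw [map_one]
    rfl
  rw [h0]
  symm
  refine ofMul_mk_eq_of (d * w) ?_
  rw [OneMemClass.coe_one, one_mul, Subgroup.coe_mul, Subgroup.coe_pow]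
  show galUnits N φ (autUnits Wa (z : (FK N)ˣ)) * (z : (FK N)ˣ) ^ q = _
  rw [hcw, hd, mul_pow]

end Modular

end Fermat.Agent.GB.A1
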