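/-
CELL-B / CASE A, node A1 (helper25), layer 2: the swap symmetry of helper47's two-reduction package
and its modular instance (the Atkin–Lehner involution `wAut h` at `q ∥ N`).

* `SwapIn T` : primitive inputs of a swap symmetry of `T : TwoRedInput R1 R2 i i U m ι` (both
  coordinate rings equal to `C`, same inclusion `i` into the common residue field): a ring
  automorphism `g` of `F` exchanging the two valuation rings with `red₂ (g x) = red₁ x`,
  `red₁ (g x) = red₂ x`, preserving the admissible units and with `g L(D_y + nE) ⊆ L(D_{g y} + nE)`;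
* `SwapIn.swapSymm` : the `SwapSymm` of `T.lamData` (with `S12 = S21 = id`), for a node permutation
  `perm` with `e2 (perm x) = e1 x`, `e1 (perm x) = e2 x`;
* `autUnits_wAut_mem_goodUnitsMod` : `W_q` preserves the admissible units `goodUnitsMod N A h m`;
* `modSwapIn` : the `SwapIn` attached to `wAut h` for ANY two-reduction package over
  `(redDataBar N A, redData2 N A h, goodUnitsMod N A h m)` — everything is definitional
  (`redData2 = redDataBar.comapAlgEquiv (wAut h)`, `wAut_wAut`);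
* `gL_swap_of_Lz` : the generic-fibre input when `T.L y n` is the `Lz` lattice of a `W_q`-fixed
  chart;
* `frob_w_of_twoRedInput`, `frob_w_of_frobNodes` : **`gal φ (W x) = -(q • x)` on
  `kerRed ⊓ kerRed₂`** for a Frobenius `φ` at `A`, the twins of helper40's
  `frob_sq_of_twoRedInput`, `frob_sq_of_frobNodes`.
-/
import Fermat.Agent.GB.A1.FrobSwap
import Fermat.Agent.GK.SS.FrobSqNodes

set_option autoImplicit false

namespace Fermat.Agent.GB.A1

open HahnSeries ModularCurve IsLocalRing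
open Fermat.Agent.GJ.J1 Fermat.Agent.GJ.J1.Val Fermat.Agent.GJ.Kum Fermat.Agent.GJ.KumGroup
open Fermat.Agent.GJ.Kum.KumType Fermat.Agent.GK.Tate Fermat.Agent.GK.Glue
open Fermat.Agent.GK.UqKronecker Fermat.Agent.GK.MultiVal Fermat.Agent.GK.AL
open Fermat.Agent.GK.SS Fermat.Agent.GK.SS.TwoRed Fermat.Agent.GK.FrobGlue
open Fermat.Agent.GK.SS.Semilin

/-- `ℚ̄`. -/
local notation "Qb" => AlgebraicClosure ℚ

/-! ### the swap symmetry of a two-reduction package -/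

section TwoRed

variable {K F k Ft : Type*} [Field K] [Field F] [Algebra K F] [Field k] [Field Ft] [Algebra k Ft]
  {C : Type*} [CommRing C] [Algebra k C]
  {R1 R2 : RedData K F k Ft} {i : C →ₐ[k] Ft} {U : Subgroup Fˣ} {m : ℕ}
  {ι : Type*} [Fintype ι] (T : TwoRedInput R1 R2 i i U m ι)

/-- The primitive inputs of a swap symmetry of the two-reduction package (see the file header). -/
structure SwapIn where
  /-- the automorphism of the function field -/
  g : F ≃+* F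
  gU : ∀ y : U, Units.map (g : F →* F) (y : Fˣ) ∈ U
  g12 : ∀ x ∈ R1.Rw, g x ∈ R2.Rw
  g21 : ∀ x ∈ R2.Rw, g x ∈ R1.Rw
  red2_g : ∀ x (h : x ∈ R1.Rw), R2.red ⟨g x, g12 x h⟩ = R1.red ⟨x, h⟩
  red1_g : ∀ x (h : x ∈ R2.Rw), R1.red ⟨g x, g21 x h⟩ = R2.red ⟨x, h⟩
  gL : ∀ (y : U) (n : ℕ) (x : F), x ∈ T.L y n → g x ∈ T.L ⟨_, gU y⟩ n

variable {T}
variable (hc : RedCompat R1 R2) (hi : Function.Injective i)
variable [Infinite k] [DecidableEq ι]

/-- **The swap symmetry of the two-reduction package.** -/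
noncomputable def SwapIn.swapSymm (Sw : SwapIn T)
    (ho : HasOrthoBases R1.A (ball2 R1 R2) (rad2 R1 R2)) (perm : Equiv.Perm ι)
    (he2 : ∀ x a, T.e2 (perm x) a = T.e1 x a) (he1 : ∀ x b, T.e1 (perm x) b = T.e2 x b) :
    SwapSymm (T.lamData hc hi hi ho) where
  S12 := id
  S21 := id
  π := perm
  s := fun y => ⟨_, Sw.gU y⟩
  e2_S := he2
  e1_S := he1
  map_Lam := by
    intro y n z hz
    obtain ⟨x, h1, h2, hL, a, b⟩ := (T.mem_lamData_Lam hc hi hi ho).1 hz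
    refine T.mk_mem_lamData_Lam hc hi hi ho (Sw.g21 x h2) (Sw.g12 x h1) (Sw.gL y n x hL) ?_ ?_
    · rw [Sw.red1_g]
      exact b
    · rw [Sw.red2_g]
      exact a

@[simp] theorem SwapIn.swapSymm_π (Sw : SwapIn T)
    (ho : HasOrthoBases R1.A (ball2 R1 R2) (rad2 R1 R2)) (perm : Equiv.Perm ι)
    (he2 : ∀ x a, T.e2 (perm x) a = T.e1 x a) (he1 : ∀ x b, T.e1 (perm x) b = T.e2 x b) :
    (Sw.swapSymm hc hi ho perm he2 he1).π = perm := rfl

/-- the action on the admissible units is `y ↦ g y` -/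
theorem SwapIn.swapSymm_s (Sw : SwapIn T)
    (ho : HasOrthoBases R1.A (ball2 R1 R2) (rad2 R1 R2)) (perm : Equiv.Perm ι)
    (he2 : ∀ x a, T.e2 (perm x) a = T.e1 x a) (he1 : ∀ x b, T.e1 (perm x) b = T.e2 x b) (y : U) :
    (((Sw.swapSymm hc hi ho perm he2 he1).s y : U) : Fˣ) =
      Units.map (Sw.g : F →* F) (y : Fˣ) := rfl

end TwoRed

/-! ### `W_q` and the admissible units -/

section Good

variable {N : ℕ} [NeZero N] {q : ℕ} (h : ExactDvd q N) {A : ValuationSubring Qb}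

omit [NeZero N] in
/-- valuation `< 1` for the transported valuation ring -/
theorem val_comap_lt_one_iff (B : ValuationSubring (FK N)) (w : FK N ≃+* FK N) (x : FK N) :
    (B.comap (w : FK N →+* FK N)).valuation x < 1 ↔ B.valuation (w x) < 1 := by
  rw [vs_val_lt_one_iff, vs_val_lt_one_iff, ValuationSubring.mem_comap,
    ValuationSubring.mem_comap]
  refine and_congr Iff.rfl (or_congr ?_ ?_)
  · exact (map_eq_zero_iff _ w.injective).symm
  · show ¬ w x⁻¹ ∈ B ↔ _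
    rw [map_inv₀]

/-- `V₂`-constant reduction of `y` is `V₁`-constant reduction of `W y` -/
theorem isCstUnit2_iff (y : FK N) :
    (galVal2 N A h).IsCstUnit y ↔ (galVal1 N A).IsCstUnit (wAut h y) := by
  unfold GalVal.IsCstUnit
  refine exists_congr fun a => and_congr Iff.rfl ?_
  have h1 := val_comap_lt_one_iff (galVal1 N A).W
    ((wAut h : FK N ≃ₐ[Qb] FK N) : FK N ≃+* FK N) (y - algebraMap Qb (FK N) a)
  have h2 : ((wAut h : FK N ≃ₐ[Qb] FK N) : FK N ≃+* FK N) (y - algebraMap Qb (FK N) a) =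
      wAut h y - algebraMap Qb (FK N) a := by
    show wAut h (y - algebraMap Qb (FK N) a) = _
    rw [map_sub, (wAut h).commutes]
  rw [h2] at h1
  exact h1

/-- **`W_q` preserves the admissible units** -/
theorem autUnits_wAut_mem_goodUnitsMod {m : ℕ} {z : (FK N)ˣ} (hz : z ∈ goodUnitsMod N A h m) :
    autUnits (wAut h : FK N ≃ₐ[Qb] FK N) z ∈ goodUnitsMod N A h m := by
  obtain ⟨h0, h1, h2⟩ := hz
  refine ⟨autUnits_mem _ m z h0, ?_, ?_⟩
  · rw [coe_autUnits]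
    exact (isCstUnit2_iff h _).1 h2
  · rw [coe_autUnits, isCstUnit2_iff, wAut_wAut]
    exact h1

end Good

/-! ### the swap symmetry of the modular two-reduction package -/

section Package

variable {N : ℕ} [NeZero N] {q : ℕ} {h : ExactDvd q N} {A : ValuationSubring Qb} {m : ℕ}

variable {C : Type*} [CommRing C] [Algebra (ResidueField A) C]
  {i : C →ₐ[ResidueField A] FresBar N A} {ι : Type*} [Fintype ι]
  (T : TwoRedInput (redDataBar N A) (redData2 N A h) i i (goodUnitsMod N A h m) m ι)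

/-- **The swap inputs attached to `W_q = wAut h`**, for ANY two-reduction package over the two
Gauss valuations of `F_N` and the admissible units `goodUnitsMod N A h m`. -/
noncomputable def modSwapIn
    (gL : ∀ (y : goodUnitsMod N A h m) (n : ℕ) (x : FK N), x ∈ T.L y n →
      wAut h x ∈ T.L ⟨autUnits (wAut h : FK N ≃ₐ[Qb] FK N) (y : (FK N)ˣ),
        autUnits_wAut_mem_goodUnitsMod h y.2⟩ n) :
    SwapIn T where
  g := ((wAut h : FK N ≃ₐ[Qb] FK N) : FK N ≃+* FK N)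
  gU := fun y => autUnits_wAut_mem_goodUnitsMod h y.2
  g12 := fun x hx => (wAut_mem_Rw2_iff N A h x).2 hx
  g21 := fun x hx => (mem_Rw2_iff N A h x).1 hx
  red2_g := fun x hx => by
    have h1 : wAut h x ∈ (redData2 N A h).Rw := (wAut_mem_Rw2_iff N A h x).2 hx
    show (redData2 N A h).red ⟨wAut h x, h1⟩ = _
    rw [red2_eq]
    congr 1
    exact Subtype.ext (wAut_wAut h x)
  red1_g := fun x hx => (red2_eq N A h x hx).symm
  gL := gL

/-- **the generic-fibre input for `W_q`** when `T.L y n` is the `Lz` lattice of a `W_q`-fixed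
chart -/
theorem gL_swap_of_Lz (t : FK N) (ht : wAut h t = t)
    (hTL : ∀ (y : goodUnitsMod N A h m) (n : ℕ) (x : FK N),
      x ∈ T.L y n ↔ x ∈ Lz Qb m ((y : (FK N)ˣ) : FK N) t n) :
    ∀ (y : goodUnitsMod N A h m) (n : ℕ) (x : FK N), x ∈ T.L y n →
      wAut h x ∈ T.L ⟨autUnits (wAut h : FK N ≃ₐ[Qb] FK N) (y : (FK N)ˣ),
        autUnits_wAut_mem_goodUnitsMod h y.2⟩ n := by
  intro y n x hx
  rw [hTL] at hx ⊢
  have hsl : IsSemilin ((wAut h : FK N ≃ₐ[Qb] FK N) : FK N ≃+* FK N) (RingEquiv.refl Qb) :=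
    fun c => (wAut h).commutes c
  exact (mem_Lz_gal hsl (t := t) ht).2 hx

variable [DecidableEq ι]

/-- **`φ ∘ W_q = -q` at `q ∥ N` from a two-reduction package**: for a Frobenius `φ` at `A`,
`gal φ (W x) = -(q • x)` on `kerRed ⊓ kerRed₂ = ker r₁ ∩ ker r₂`. -/
theorem frob_w_of_twoRedInput (hA : A.LiesOverPrime q) (hm : m ≠ 0)
    (hc : RedCompat (redDataBar N A) (redData2 N A h)) (hi : Function.Injective i)
    (ho : HasOrthoBases (redDataBar N A).A (ball2 (redDataBar N A) (redData2 N A h))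
      (rad2 (redDataBar N A) (redData2 N A h)))
    {φ : Qb ≃ₐ[ℚ] Qb} (hφ : A.IsFrobeniusAt φ q)
    (S1 : C → C) (S2 : C → C)
    (hS1 : ∀ r, i (S1 r) = resFres N A φ hφ.mem_decompositionSubgroup (i r))
    (hS2 : ∀ r, i (S2 r) = resFres N A φ hφ.mem_decompositionSubgroup (i r))
    (gL : ∀ (y : goodUnitsMod N A h m) (n : ℕ) (x : FK N), x ∈ T.L y n →
      galF N φ x ∈ T.L ⟨galUnits N φ (y : (FK N)ˣ),
        galUnits_mem_goodUnits_dec hφ.mem_decompositionSubgroup y.2⟩ n)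
    (gLw : ∀ (y : goodUnitsMod N A h m) (n : ℕ) (x : FK N), x ∈ T.L y n →
      wAut h x ∈ T.L ⟨autUnits (wAut h : FK N ≃ₐ[Qb] FK N) (y : (FK N)ˣ),
        autUnits_wAut_mem_goodUnitsMod h y.2⟩ n)
    (perm : Equiv.Perm ι) (hperm : ∀ x, perm (perm x) = x)
    (he1 : ∀ x a, T.e1 (perm x) (S1 a) = T.e1 x a ^ q)
    (he2 : ∀ x b, T.e2 (perm x) (S2 b) = T.e2 x b ^ q)
    (hw2 : ∀ x a, T.e2 (perm x) a = T.e1 x a) (hw1 : ∀ x b, T.e1 (perm x) b = T.e2 x b)
    (hclaim2 : ∀ z : goodUnitsMod N A h m,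
      (∃ n, T.n0 ≤ n ∧ ((1 : C), (1 : C)) ∈ (T.lamData hc hi hi ho).Lam z n) →
      ∃ c ∈ cstUnits N, ∃ w : (FK N)ˣ, (z : (FK N)ˣ) = c * w ^ m)
    (x : Additive (Kum Qb (FK N) m)) (hx : x ∈ kerRed N A m ⊓ kerRed₂ h A m) :
    gal N m φ (autEnd (wAut h : FK N ≃ₐ[Qb] FK N) m x) = -(q • x) := by
  have hφd := hφ.mem_decompositionSubgroup
  have hfk : ∀ c, resk A φ hφd c = c ^ q := resk_of_frobenius hφ
  let Sy := modSymmIn T hφd S1 S2 hS1 hS2 gL
  let Sw := modSwapIn T gLw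
  obtain ⟨u, huU, -, -, rfl⟩ := exists_goodUnit_rep h hA hm hx.1 hx.2
  exact frob_swap_kum hm (goodUnitsMod N A h m) (T.lamData hc hi hi ho) φ (wAut h)
    (Sy.semiSymm hc hi hi ho (resk A φ hφd) perm
      (fun x a => by rw [hfk]; exact he1 x a) (fun x b => by rw [hfk]; exact he2 x b))
    (Sw.swapSymm hc hi ho perm hw2 hw1)
    (fun _ => rfl) (fun _ => rfl) q hfk hperm hclaim2 ⟨(u : (FK N)ˣ), huU⟩ u.2

/-- **`φ ∘ W_q = -q` at `q ∥ N`** from a two-reduction package whose generic lattices are the `Lz`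
lattices of a chart fixed by the Galois action and by `W_q`. -/
theorem frob_w_of_twoRedInput_Lz (hA : A.LiesOverPrime q) (hm : m ≠ 0)
    (hc : RedCompat (redDataBar N A) (redData2 N A h)) (hi : Function.Injective i)
    (ho : HasOrthoBases (redDataBar N A).A (ball2 (redDataBar N A) (redData2 N A h))
      (rad2 (redDataBar N A) (redData2 N A h)))
    (t : FK N)
    (ht : ∀ τ : Qb ≃ₐ[ℚ] Qb, arithmeticRingAut (modularFunctionFieldFull N) τ t = t)
    (htw : wAut h t = t)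
    (hTL : ∀ (y : goodUnitsMod N A h m) (n : ℕ) (x : FK N),
      x ∈ T.L y n ↔ x ∈ Lz Qb m ((y : (FK N)ˣ) : FK N) t n)
    {φ : Qb ≃ₐ[ℚ] Qb} (hφ : A.IsFrobeniusAt φ q)
    (S1 : C → C) (S2 : C → C)
    (hS1 : ∀ r, i (S1 r) = resFres N A φ hφ.mem_decompositionSubgroup (i r))
    (hS2 : ∀ r, i (S2 r) = resFres N A φ hφ.mem_decompositionSubgroup (i r))
    (perm : Equiv.Perm ι) (hperm : ∀ x, perm (perm x) = x)
    (he1 : ∀ x a, T.e1 (perm x) (S1 a) = T.e1 x a ^ q)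
    (he2 : ∀ x b, T.e2 (perm x) (S2 b) = T.e2 x b ^ q)
    (hw2 : ∀ x a, T.e2 (perm x) a = T.e1 x a) (hw1 : ∀ x b, T.e1 (perm x) b = T.e2 x b)
    (hclaim2 : ∀ z : goodUnitsMod N A h m,
      (∃ n, T.n0 ≤ n ∧ ((1 : C), (1 : C)) ∈ (T.lamData hc hi hi ho).Lam z n) →
      ∃ c ∈ cstUnits N, ∃ w : (FK N)ˣ, (z : (FK N)ˣ) = c * w ^ m)
    (x : Additive (Kum Qb (FK N) m)) (hx : x ∈ kerRed N A m ⊓ kerRed₂ h A m) :
    gal N m φ (autEnd (wAut h : FK N ≃ₐ[Qb] FK N) m x) = -(q • x) :=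
  frob_w_of_twoRedInput T hA hm hc hi ho hφ S1 S2 hS1 hS2
    (gL_of_Lz T t ht hTL hφ.mem_decompositionSubgroup) (gL_swap_of_Lz T t htw hTL)
    perm hperm he1 he2 hw2 hw1 hclaim2 x hx

end Package

/-! ### the node involution exchanges the two branches -/

section NodeSwap

variable {k C : Type*} [Field k] [CommRing C] [Algebra k C] (Ψ : C →ₐ[k] C) (J' : Ideal C)
  (hk : ∀ P ∈ nodes J', Function.Surjective (algebraMap k (C ⧸ P)))

/-- second branch at `π P` = first branch at `P` (because `Ψ² = id` modulo `fixIdeal Ψ ≤ P`) -/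
theorem e2_nodePerm_eq_e1 (hJ : fixIdeal Ψ ≤ J') (hΨJ : ∀ d ∈ J', Ψ d ∈ J')
    (P : ↥(nodes J')) (a : C) :
    FrobNodes.e2 Ψ J' hk (FrobNodes.nodePerm Ψ J' hk hJ hΨJ P) a = FrobNodes.e1 J' hk P a := by
  show FrobNodes.e1 J' hk (FrobNodes.nodePerm Ψ J' hk hJ hΨJ P) (Ψ a) = _
  rw [FrobNodes.e1_nodePerm_apply, FrobNodes.e1_apply, FrobNodes.e1_apply, evalAt_eq_iff]
  have h1 := P.2.2 (hJ (sub_mem_fixIdeal Ψ a))
  have h2 := P.1.neg_mem h1
  rwa [neg_sub] at h2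

/-- first branch at `π P` = second branch at `P` -/
theorem e1_nodePerm_eq_e2 (hJ : fixIdeal Ψ ≤ J') (hΨJ : ∀ d ∈ J', Ψ d ∈ J')
    (P : ↥(nodes J')) (b : C) :
    FrobNodes.e1 J' hk (FrobNodes.nodePerm Ψ J' hk hJ hΨJ P) b = FrobNodes.e2 Ψ J' hk P b :=
  FrobNodes.e1_nodePerm_apply Ψ J' hk hJ hΨJ P b

end NodeSwap

/-! ### the Frobenius-glueing node model -/

section Nodes

variable {N : ℕ} [NeZero N] {q : ℕ} {h : ExactDvd q N} {A : ValuationSubring Qb} {m : ℕ}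

variable {C : Type*} [CommRing C] [Algebra (ResidueField A) C]
  {i : C →ₐ[ResidueField A] FresBar N A}
  (Ψ : C →ₐ[ResidueField A] C) (J' : Ideal C)
  (hk : ∀ P ∈ nodes J', Function.Surjective (algebraMap (ResidueField A) (C ⧸ P)))
  [Fintype ↥(nodes J')] [DecidableEq ↥(nodes J')]
  (T : TwoRedInput (redDataBar N A) (redData2 N A h) i i (goodUnitsMod N A h m) m
    ↥(nodes J'))

/-- **`φ ∘ W_q = -q` at `q ∥ N` for the Frobenius-glueing node model.** -/
theorem frob_w_of_frobNodes (hA : A.LiesOverPrime q) (hm : m ≠ 0)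
    (hc : RedCompat (redDataBar N A) (redData2 N A h)) (hi : Function.Injective i)
    (ho : HasOrthoBases (redDataBar N A).A (ball2 (redDataBar N A) (redData2 N A h))
      (rad2 (redDataBar N A) (redData2 N A h)))
    (t : FK N)
    (ht : ∀ τ : Qb ≃ₐ[ℚ] Qb, arithmeticRingAut (modularFunctionFieldFull N) τ t = t)
    (htw : wAut h t = t)
    (hTL : ∀ (y : goodUnitsMod N A h m) (n : ℕ) (x : FK N),
      x ∈ T.L y n ↔ x ∈ Lz Qb m ((y : (FK N)ˣ) : FK N) t n)
    (hTe1 : T.e1 = FrobNodes.e1 J' hk) (hTe2 : T.e2 = FrobNodes.e2 Ψ J' hk)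
    (hJ : fixIdeal Ψ ≤ J') (hΨJ : ∀ d ∈ J', Ψ d ∈ J')
    {φ : Qb ≃ₐ[ℚ] Qb} (hφ : A.IsFrobeniusAt φ q)
    (S : C → C) (hΨS : ∀ a, Ψ (S a) = a ^ q)
    (hS : ∀ r, i (S r) = resFres N A φ hφ.mem_decompositionSubgroup (i r))
    (hclaim2 : ∀ z : goodUnitsMod N A h m,
      (∃ n, T.n0 ≤ n ∧ ((1 : C), (1 : C)) ∈ (T.lamData hc hi hi ho).Lam z n) →
      ∃ c ∈ cstUnits N, ∃ w : (FK N)ˣ, (z : (FK N)ˣ) = c * w ^ m)
    (x : Additive (Kum Qb (FK N) m)) (hx : x ∈ kerRed N A m ⊓ kerRed₂ h A m) :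
    gal N m φ (autEnd (wAut h : FK N ≃ₐ[Qb] FK N) m x) = -(q • x) :=
  frob_w_of_twoRedInput_Lz T hA hm hc hi ho t ht htw hTL hφ S S hS hS
    (FrobNodes.nodePerm Ψ J' hk hJ hΨJ) (FrobNodes.nodePerm_nodePerm Ψ J' hk hJ hΨJ)
    (fun P a => by rw [hTe1]; exact FrobNodes.e1_nodePerm Ψ J' hk hJ hΨJ S hΨS P a)
    (fun P b => by rw [hTe2]; exact FrobNodes.e2_nodePerm Ψ J' hk hJ hΨJ S hΨS P b)
    (fun P a => by rw [hTe1, hTe2]; exact e2_nodePerm_eq_e1 Ψ J' hk hJ hΨJ P a)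
    (fun P b => by rw [hTe1, hTe2]; exact e1_nodePerm_eq_e2 Ψ J' hk hJ hΨJ P b)
    hclaim2 x hx

end Nodes

end Fermat.Agent.GB.A1
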