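/-
CELL-B / CASE A, node A1 (helper25), layer 3: **`φ ∘ W_q = -q` on `kerRed ⊓ kerRed₂` at `F_N`,
`q ∥ N`, from the special-fibre facts** — the twin of helper44's `Modular.frobSq_fibre`
(`GK/SS/ModularFibreG1.lean`) and helper40's `FibreFrob.frobSq_fibre`, `frobSq_mul`
(`GK/S35/FrobSqFinal.lean`), with the SAME hypotheses.

* `frobW_fibre` : from the special-fibre facts (abstract Dedekind coordinate ring `C`, `Ψ`, `J'`,
  N6 `hB hBsurj`, old lifts `hα hβ`) and a Frobenius `φ` at `A`;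
* `frobW_mul` : at `(N' ℓ, ℓ, m, A, φ)` with the CONCRETE `C = CRing N' A`, `Ψ = psiC`, `J'` the node
  ideal of `B~ = BT N' ℓ A h`.
-/
import Fermat.Agent.GB.A1.SwapMod
import Fermat.Agent.GK.S35.FrobSqFinal
import Fermat.Agent.GK.Flat.SymDegreeInst

set_option autoImplicit false
set_option linter.unusedSectionVars false
set_option linter.style.haveILetI false

noncomputable section

namespace Fermat.Agent.GB.A1

open AlgebraicCurve IntermediateField Module IsLocalRing ModularCurve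
open Fermat.Agent.S24 Fermat.Agent.S24_helper62 Fermat.Agent.RRh45 Fermat.Agent.RR
open Fermat.Agent.GJ.J1 Fermat.Agent.GJ.J1.Val Fermat.Agent.GJ.J1.InstGen
open Fermat.Agent.GJ.KumGroup Fermat.Agent.GJ.FF.PrincipalOf
open Fermat.Agent.GK.AL Fermat.Agent.GK.MultiVal Fermat.Agent.GK.Core
open Fermat.Agent.GK.CuspSep Fermat.Agent.GK.SymChart Fermat.Agent.GK.SymDegree
open Fermat.Agent.GK.BallTwo Fermat.Agent.GK.Val.TwoVal Fermat.Agent.GK.PsiFN
open Fermat.Agent.GK.FrobGlue Fermat.Agent.GK.NodalBridge Fermat.Agent.GK.NodalGraded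
open Fermat.Agent.GK.NodalPole Fermat.Agent.GK.PencilInf Fermat.Agent.GK.PencilInstS
open Fermat.Agent.GK.SS Fermat.Agent.GK.SS.TwoRed Fermat.Agent.GK.SS.FrobNodes
open Fermat.Agent.GK.SS.HTGlue Fermat.Agent.GK.SS.Modular
open Fermat.Agent.GK.SS.CompRiemann Fermat.Agent.GK.Core.Twist Fermat.Agent.GK.Core.TwistNodal
open Fermat.Agent.GJ.Kum Fermat.Agent.GJ.Kum.KumType Fermat.Agent.GK.Tate
open Fermat.Agent.GK.UqKronecker Fermat.Agent.GK.SS.LGen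
open Fermat.Agent.GK.PsiFNGood Fermat.Agent.GK.QS Fermat.Agent.GK.S35

section Main

variable {q : ℕ} (N : ℕ) [NeZero N] [NeZero q] (A : ValuationSubring Kbar) (h : ExactDvd q N)

attribute [local instance] Fermat.Agent.RR.ModularBar.finiteResidues
  Fermat.Agent.RR.ModularBar.hasPrincipalDivisors Fermat.Agent.RR.ModularBar.nonempty_place

variable {C : Type} [CommRing C] [Algebra (ResidueField A) C] [Algebra C (FresBar N A)]
  [IsScalarTower (ResidueField A) C (FresBar N A)]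

set_option maxHeartbeats 1600000 in
/-- **`φ ∘ W_q = -q` at `F_N`, `q ∥ N`, from the special-fibre facts**: `gal φ (W x) = -(q • x)` on
`kerRed ⊓ kerRed₂` for a Frobenius `φ` at `A`.  Hypotheses = those of helper44's
`Modular.frobSq_fibre`. -/
theorem frobW_fibre_of_block (hA : A.LiesOverPrime q) {m : ℕ}
    (hmk : ((m : ℕ) : ResidueField A) ≠ 0)
    [IsDedekindDomain C] (hCf : ¬ IsField C)
    (hinj : Function.Injective (algebraMap C (FresBar N A)))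
    (hCreg : ∀ c : C, RegFin (ResidueField A) (tauF N A) (algebraMap C (FresBar N A) c))
    (hCrange : ∀ z : FresBar N A, RegFin (ResidueField A) (tauF N A) z →
      z ∈ Set.range (algebraMap C (FresBar N A)))
    (Ψ : C →ₐ[ResidueField A] C) (hΨpow : ∀ a, ∃ b, Ψ a = b ^ q)
    (hΨ : ∀ c, algebraMap C (FresBar N A) (Ψ c) = psiFN N A h hA (algebraMap C (FresBar N A) c))
    (J' : Ideal C) (hfix : fixIdeal Ψ ≤ J')
    (hB : ∀ (x : FN N) (h1 : x ∈ (redDataBar N A).Rw) (h2 : x ∈ (redData2 N A h).Rw),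
      RegFin Kbar (jF N) x →
      ∃ g g' : C, algebraMap C (FresBar N A) g = (redDataBar N A).red ⟨x, h1⟩ ∧
        algebraMap C (FresBar N A) g' = (redData2 N A h).red ⟨x, h2⟩ ∧ g - Ψ g' ∈ J')
    (hBsurj : ∀ g g' : C, g - Ψ g' ∈ J' →
      ∃ (x : FN N) (h1 : x ∈ (redDataBar N A).Rw) (h2 : x ∈ (redData2 N A h).Rw),
        RegFin Kbar (jF N) x ∧ (redDataBar N A).red ⟨x, h1⟩ = algebraMap C (FresBar N A) g ∧
          (redData2 N A h).red ⟨x, h2⟩ = algebraMap C (FresBar N A) g')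
    (mα mβ : ℕ)
    (hα : ∀ m : ℕ, mα ≤ m → ∀ y ∈ Lfib (ResidueField A) (tauF N A) (m : ℤ), ∃ x,
      ∃ hx : x ∈ (ballFN N A h).B,
      RegFin Kbar (jF N * jdF N q h.dvd)⁻¹ ((jF N)⁻¹ ^ m * x) ∧
        (ballFN N A h).red ⟨x, hx⟩ = (y, psiFN N A h hA y))
    (hβ : ∀ m : ℕ, mβ ≤ m → ∀ y ∈ Lfib (ResidueField A) (tauF N A) (m : ℤ), ∃ x,
      ∃ hx : x ∈ (ballFN N A h).B,
      RegFin Kbar (jF N * jdF N q h.dvd)⁻¹ ((jdF N q h.dvd)⁻¹ ^ m * x) ∧
        (ballFN N A h).red ⟨x, hx⟩ = (psiFN N A h hA y, y))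
    (hΨJ : ∀ d ∈ J', Ψ d ∈ J')
    {φ : Kbar ≃ₐ[ℚ] Kbar} (hφ : A.IsFrobeniusAt φ q)
    (S : C → C) (hΨS : ∀ a, Ψ (S a) = a ^ q)
    (hS : ∀ r, algebraMap C (FresBar N A) (S r) =
      resFres N A φ hφ.mem_decompositionSubgroup (algebraMap C (FresBar N A) r))
    (x : Additive (Kum Kbar (FK N) m)) (hx : x ∈ kerRed N A m ⊓ kerRed₂ h A m) :
    gal N m φ (autEnd (wAut h : FK N ≃ₐ[Kbar] FK N) m x) = -(q • x) := by
  classical
  have hq2 : 2 ≤ q := h.prime.two_le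
  have hJ0 : J' ≠ ⊥ := fun h0 => fixIdeal_ne_bot Ψ hCf hq2 hΨpow (le_bot_iff.1 (h0 ▸ hfix))
  letI : Fintype ↥(nodes J') := (finite_nodes hCf hJ0).fintype
  obtain ⟨hk, I, hIe1, hIe2, hconn, Pc, hs, hunit, hTfin, hT, g', c0, hg', hdimT⟩ :=
    exists_chartInput_of_fibre N A h hA hmk hCf hinj hCreg hCrange Ψ hΨpow hΨ J' hfix hB hBsurj
      mα mβ hα hβ
  haveI hgenK : IsGen Kbar (jF N) := isGen_jF N
  have H : Hyp Kbar (FN N) := hyp_of_isGen (jF N)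
  haveI : IsAlgClosed (ResidueField A) :=
    Fermat.Agent.GJ.ResidueAlgClosed.isAlgClosed_residueField A
  haveI : Infinite (ResidueField A) := IsAlgClosed.instInfinite
  haveI : FiniteDimensional Kbar⟮tS N h.dvd⟯ (FN N) := (isGen_tS N h.dvd).finite
  have ht1 := isGaussChart1_tS N A h hA
  have ht2 := isGaussChart2_tS N A h hA
  have hc := redCompatFN N A h
  have hne := Rw1_ne_Rw2 N A h hA
  have hdeg := hdeg_tS_le N A h hA
  have hti1 := inv_tS_mem_Rw1 N A h hA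
  have hti2 := inv_tS_mem_Rw2 N A h hA
  have htK := transcendental_tS N h.dvd
  have ho := hasOrthoBases_FN N A h hA
  have hrk := rankOne_bar N A h hA
  have hm0 : m ≠ 0 := I.m_ne_zero
  have hinjC : Function.Injective
      (IsScalarTower.toAlgHom (ResidueField A) C (FresBar N A)) := hinj
  set T := I.twoRedInput H (jF N) htK hc hne hdeg hti1 hti2 with hTdef
  have hTL : ∀ (y : goodUnitsMod N A h m) (n : ℕ) (x : FK N),
      x ∈ T.L y n ↔ x ∈ Lz Kbar m ((y : (FK N)ˣ) : FK N) (tS N h.dvd) n := by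
    intro y n x
    show x ∈ Lgen H (tS N h.dvd) m ((y : (FK N)ˣ) : FK N) n ↔ _
    rw [mem_Lgen_iff (H := H) (jF N) htK hm0 (ChartInput.y_ne_zero y) (I.U_dvd y), mem_Lz]
  have hclaim2 := Fermat.Agent.GK.SS.Claim2Plug.hclaim2_units_of_core (jF N) hc ho hrk
    (mem_ball2.2 ⟨ht1.1, ht2.1⟩) htK Pc hs hunit hTfin hT g' c0 hg' hdimT hmk hinjC hinjC T
    (fun y n x hx => (hTL y n x).2 hx)
    (fun n x hx => by
      have hx' : x ∈ Lgen H (tS N h.dvd) m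
          (((1 : goodUnitsMod N A h m) : (FK N)ˣ) : FK N) n := hx
      rw [OneMemClass.coe_one, Units.val_one, Lgen_one (H := H) (m := m) (jF N) htK n] at hx'
      exact hx')
    I.U_dvd
  exact frob_w_of_frobNodes Ψ J' hk T hA hm0 hc hinjC ho (tS N h.dvd) (tS_galois N h)
    (wAut_tS N h) hTL hIe1 hIe2 hfix hΨJ hφ S hΨS hS hclaim2 x hx

/-- **`φ ∘ W_q = -q` at `F_N`, `q ∥ N`, from the special-fibre facts alone**: the hypotheses of
helper56's `nonempty_ssPackage_fibre` and a Frobenius `φ` at `A` (twin of helper40's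
`FibreFrob.frobSq_fibre`). -/
theorem frobW_fibre (hA : A.LiesOverPrime q) {m : ℕ}
    (hmk : ((m : ℕ) : ResidueField A) ≠ 0)
    [IsDedekindDomain C] (hCf : ¬ IsField C)
    (hinj : Function.Injective (algebraMap C (FresBar N A)))
    (hCreg : ∀ c : C, RegFin (ResidueField A) (tauF N A) (algebraMap C (FresBar N A) c))
    (hCrange : ∀ z : FresBar N A, RegFin (ResidueField A) (tauF N A) z →
      z ∈ Set.range (algebraMap C (FresBar N A)))
    (Ψ : C →ₐ[ResidueField A] C) (hΨpow : ∀ a, ∃ b, Ψ a = b ^ q)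
    (hΨ : ∀ c, algebraMap C (FresBar N A) (Ψ c) = psiFN N A h hA (algebraMap C (FresBar N A) c))
    (J' : Ideal C) (hfix : fixIdeal Ψ ≤ J')
    (hB : ∀ (x : FN N) (h1 : x ∈ (redDataBar N A).Rw) (h2 : x ∈ (redData2 N A h).Rw),
      RegFin Kbar (jF N) x →
      ∃ g g' : C, algebraMap C (FresBar N A) g = (redDataBar N A).red ⟨x, h1⟩ ∧
        algebraMap C (FresBar N A) g' = (redData2 N A h).red ⟨x, h2⟩ ∧ g - Ψ g' ∈ J')
    (hBsurj : ∀ g g' : C, g - Ψ g' ∈ J' →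
      ∃ (x : FN N) (h1 : x ∈ (redDataBar N A).Rw) (h2 : x ∈ (redData2 N A h).Rw),
        RegFin Kbar (jF N) x ∧ (redDataBar N A).red ⟨x, h1⟩ = algebraMap C (FresBar N A) g ∧
          (redData2 N A h).red ⟨x, h2⟩ = algebraMap C (FresBar N A) g')
    (mα mβ : ℕ)
    (hα : ∀ m : ℕ, mα ≤ m → ∀ y ∈ Lfib (ResidueField A) (tauF N A) (m : ℤ), ∃ x,
      ∃ hx : x ∈ (ballFN N A h).B,
      RegFin Kbar (jF N * jdF N q h.dvd)⁻¹ ((jF N)⁻¹ ^ m * x) ∧
        (ballFN N A h).red ⟨x, hx⟩ = (y, psiFN N A h hA y))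
    (hβ : ∀ m : ℕ, mβ ≤ m → ∀ y ∈ Lfib (ResidueField A) (tauF N A) (m : ℤ), ∃ x,
      ∃ hx : x ∈ (ballFN N A h).B,
      RegFin Kbar (jF N * jdF N q h.dvd)⁻¹ ((jdF N q h.dvd)⁻¹ ^ m * x) ∧
        (ballFN N A h).red ⟨x, hx⟩ = (psiFN N A h hA y, y))
    {φ : Kbar ≃ₐ[ℚ] Kbar} (hφ : A.IsFrobeniusAt φ q)
    (x : Additive (Kum Kbar (FN N) m)) (hx1 : x ∈ kerRed N A m) (hx2 : x ∈ kerRed₂ h A m) :
    gal N m φ (autEnd (wAut h : FK N ≃ₐ[Kbar] FK N) m x) = -(q • x) := by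
  obtain ⟨S, hΨS, hS, hΨJ⟩ :=
    FibreFrob.exists_frobBlock N A h hA hinj hCreg hCrange Ψ hΨ J' hB hBsurj hφ
  exact frobW_fibre_of_block N A h hA hmk hCf hinj hCreg hCrange Ψ hΨpow hΨ J' hfix hB hBsurj
    mα mβ hα hβ hΨJ hφ S hΨS hS x ⟨hx1, hx2⟩

end Main

section Level

variable (N' : ℕ) [NeZero N'] (ℓ : ℕ) [Fact ℓ.Prime] [NeZero ℓ]
variable (A : ValuationSubring Kbar) (h : ExactDvd ℓ (N' * ℓ)) (hA : A.LiesOverPrime ℓ)

include hA in
set_option synthInstance.maxHeartbeats 400000 in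
set_option maxHeartbeats 1600000 in
/-- **`φ ∘ W_ℓ = -ℓ` at level `N' ℓ`** from the special-fibre inputs of
`Modular.nonempty_ssPackage_mul` and a Frobenius `φ` at `A` (twin of helper40's `frobSq_mul`). -/
theorem frobW_mul (hℓN : ¬ ℓ ∣ N') (h2 : ℓ = 2 → 3 ∣ N') (h3 : ℓ = 3 → 2 ∣ N')
    {m : ℕ} (hmk : ((m : ℕ) : ResidueField A) ≠ 0)
    [IsDedekindDomain (CRing N' A)] (hCf : ¬ IsField (CRing N' A))
    (hrange : ∀ x : BRing N' ℓ A h, rho1 N' ℓ A h x ∈ Set.range (cVal N' A) ∧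
      rho2 N' ℓ A h x ∈ Set.range (cVal N' A))
    {φ : Kbar ≃ₐ[ℚ] Kbar} (hφ : A.IsFrobeniusAt φ ℓ)
    (x : Additive (Kum Kbar (FN (N' * ℓ)) m)) (hx1 : x ∈ kerRed (N' * ℓ) A m)
    (hx2 : x ∈ kerRed₂ h A m) :
    gal (N' * ℓ) m φ (autEnd (wAut h : FK (N' * ℓ) ≃ₐ[Kbar] FK (N' * ℓ)) m x) = -(ℓ • x) := by
  obtain ⟨J', hfix, hBT⟩ := exists_ideal_BT N' ℓ A h hℓN hA h2 h3
  obtain ⟨mα, hα⟩ := Fermat.Agent.GK.OldLiftsFN.exists_alpha_lifts_FN (N' * ℓ) A h hA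
    (fun e => Dvd.dvd.mul_right (h2 e) ℓ) (fun e => Dvd.dvd.mul_right (h3 e) ℓ)
  obtain ⟨mβ, hβ⟩ := Fermat.Agent.GK.OldLiftsFN.exists_beta_lifts_FN (N' * ℓ) A h hA
    (fun e => Dvd.dvd.mul_right (h2 e) ℓ) (fun e => Dvd.dvd.mul_right (h3 e) ℓ)
  letI : Algebra (CRing N' A) (FresBar (N' * ℓ) A) := (iC N' ℓ A h hA).toRingHom.toAlgebra
  haveI : IsScalarTower (ResidueField A) (CRing N' A) (FresBar (N' * ℓ) A) :=
    IsScalarTower.of_algebraMap_eq fun c => ((iC N' ℓ A h hA).commutes c).symm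
  exact frobW_fibre (N' * ℓ) A h hA hmk hCf (iC_injective N' ℓ A h hA)
    (regFin_iC N' ℓ A h hA) (fun z hz => mem_range_iC N' ℓ A h hA hz)
    (psiC N' ℓ A hℓN hA) (exists_pow_eq_psiC N' ℓ A hℓN hA) (iC_psiC N' ℓ A h hA hℓN)
    J' hfix (hB_of_range N' ℓ A h hA hℓN hBT hrange) (hBsurj_of_BT N' ℓ A h hA hℓN hBT)
    mα mβ hα hβ hφ x hx1 hx2

end Level

end Fermat.Agent.GB.A1
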