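/-
CELL-B / CASE A, node A1 (helper25), top: **`φ ∘ W_q = -q` on `K = ker r₁ ∩ ker r₂` at EVERY level
`q ∥ N`, `q ∤ m`** — the refinement of (G1) `φ² = q²` (helper40/helper27/helper82,
`GK/S35/FrobSqFinal.g1All`) needed by Mazur's principle when `q ≡ -1 (mod p)`.

Same plumbing as helper27's `GK/SS/FrobSqAux.lean`:

* `FrobWAt hN m` : the statement at level `N` (`hN : ExactDvd q N`), all places over `q`, all
  Frobenius lifts;
* `frobWAt_of_dvd` : descent along `N ∣ M` with `[F_M : F_N]` prime to `m`;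
* `frobWAt_of_aux` : the auxiliary levels (`q = 2 → 3 ∣ N`, `q = 3 → 2 ∣ N`) give all levels;
* `frobWAt_aux` : the auxiliary levels, from `frobW_mul` and `Modular.fibreFacts`;
* **`frobW_all`** : `gal φ (W x) = -(q • x)` for `x ∈ kerRed N A m ⊓ kerRed₂ h A m`;
  `frobW_all'` : `gal φ x = -(q • W x)`; `frob_eq_neg_of_w`, `frob_eq_of_w_neg` : on the `W = ±1`
  eigenspaces of `K` the Frobenius is the scalar `∓q`.
-/
import Fermat.Agent.GB.A1.FibreW
import Fermat.Agent.GK.SS.FrobSqAux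

set_option autoImplicit false
set_option linter.style.haveILetI false

noncomputable section

open AlgebraicCurve ModularCurve IntermediateField

namespace Fermat.Agent.GB.A1

open Fermat.Agent.GJ.KumGroup Fermat.Agent.GJ.Kum.KumType Fermat.Agent.GJ.J1.Desc
open Fermat.Agent.GJ.J1 Fermat.Agent.GJ.J1.Val
open Fermat.Agent.GK.Tate Fermat.Agent.S24 Fermat.Agent.GK.SS.AuxDescent
open Fermat.Agent.GK.UqKronecker Fermat.Agent.GK.AL
open Fermat.Agent.S24_helper62 Fermat.Agent.S24_helper82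
open Fermat.Agent.GK.SS.FrobSqAux Fermat.Agent.GK.SS.Modular Fermat.Agent.GK.PsiFNGood

local notation "GQ" => (AlgebraicClosure ℚ ≃ₐ[ℚ] AlgebraicClosure ℚ)

/-- `ℚ̄`. -/
local notation "Qb" => AlgebraicClosure ℚ

variable {N M : ℕ} [NeZero N] [NeZero M]

/-- **the statement `φ ∘ W_q = -q`** at the level `N`, `q ∥ N`, modulus `m`: for every place `A`
over `q` and every Frobenius lift `φ` at `A`, `gal φ (W x) = -(q • x)` on
`ker r₁ ∩ ker r₂ ⊂ Kum_m(F_N)`. -/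
def FrobWAt {q : ℕ} (hN : ExactDvd q N) (m : ℕ) : Prop :=
  ∀ A : ValuationSubring Qb, A.LiesOverPrime q → ∀ φ : GQ, A.IsFrobeniusAt φ q →
    ∀ x : Additive (Kum Kb (FK N) m), x ∈ kerRed N A m → x ∈ kerRed₂ hN A m →
      gal N m φ (autEnd (wAut hN : FK N ≃ₐ[Kb] FK N) m x) = -(q • x)

/-- `W` commutes with the inclusion, on units -/
theorem autUnits_inclUnits {q : ℕ} (h : N ∣ M) (hN : ExactDvd q N) (hM : ExactDvd q M)
    (u : (FK N)ˣ) :
    autUnits (wAut hM : FK M ≃ₐ[Kb] FK M) (inclUnits h u) =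
      inclUnits h (autUnits (wAut hN : FK N ≃ₐ[Kb] FK N) u) := by
  refine Units.ext ?_
  rw [coe_autUnits, coe_inclUnits', coe_inclUnits', coe_autUnits, wAut_inclusion h hN hM]

/-- `W` commutes with the inclusion, on `m`-divisible units -/
theorem autEnd_mk_inclDiv {q : ℕ} (h : N ∣ M) (hN : ExactDvd q N) (hM : ExactDvd q M) (m : ℕ)
    (u : pDivUnits Kb (FK N) m) :
    autEnd (wAut hM : FK M ≃ₐ[Kb] FK M) m (Additive.ofMul (Kum.mk (inclDiv h m u))) =
      Additive.ofMul (Kum.mk (inclDiv h m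
        ⟨autUnits (wAut hN : FK N ≃ₐ[Kb] FK N) u, autUnits_mem (wAut hN : FK N ≃ₐ[Kb] FK N) m u u.2⟩)) := by
  rw [autEnd_mk]
  refine congrArg (fun v => Additive.ofMul (Kum.mk v)) (Subtype.ext ?_)
  exact autUnits_inclUnits h hN hM (u : (FK N)ˣ)

/-- **`φ ∘ W_q = -q` descends** from the level `M` to a level `N ∣ M` when `[F_M : F_N]` is prime
to `m`. -/
theorem frobWAt_of_dvd {q : ℕ} (h : N ∣ M) {m : ℕ}
    (hcop : (relfinrank (modularFunctionFieldBar N) (modularFunctionFieldBar M)).Coprime m)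
    (hN : ExactDvd q N) (hM : ExactDvd q M) (hG : FrobWAt hM m) : FrobWAt hN m := by
  intro A hA φ hφ x hx1 hx2
  obtain ⟨u, rfl⟩ := exists_rep x
  obtain ⟨u1, hu1, hu1x⟩ := mem_kerRed.mp hx1
  obtain ⟨u2, hu2, hu2x⟩ := mem_kerRedW.mp hx2
  have e1 : (Kum.mk u1 : Kum Kb (FK N) m) = Kum.mk u := Additive.ofMul.injective hu1x
  have e2 : (Kum.mk u2 : Kum Kb (FK N) m) = Kum.mk u := Additive.ofMul.injective hu2x
  -- the class upstairs lies in both kernels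
  have hy1 : Additive.ofMul (Kum.mk (inclDiv h m u)) ∈ kerRed M A m := by
    refine mem_kerRed.mpr ⟨inclDiv h m u1, ?_, congrArg Additive.ofMul (mk_inclDiv_eq h e1)⟩
    exact (isCPrin_inclUnits_iff h A (u1 : (FK N)ˣ)).mpr hu1
  have hy2 : Additive.ofMul (Kum.mk (inclDiv h m u)) ∈ kerRed₂ hM A m := by
    refine mem_kerRedW.mpr ⟨inclDiv h m u2, ?_, congrArg Additive.ofMul (mk_inclDiv_eq h e2)⟩
    show IsCPrin (hasGaussFrac_bar M A)
      (wAut hM ((inclUnits h (u2 : (FK N)ˣ) : (FK M)ˣ) : FK M))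
    rw [coe_inclUnits', wAut_inclusion h hN hM]
    exact (isCPrin_inclusion_iff (hasGaussFrac_bar N A) (hasGaussFrac_bar M A) (fk_le h) _).mpr hu2
  have key := hG A hA φ hφ _ hy1 hy2
  rw [autEnd_mk_inclDiv h hN hM, gal_mk_inclDiv] at key
  -- `-(q • [ι u]) = [ι ((u ^ q)⁻¹)]`
  have hpow : (-(q • Additive.ofMul (Kum.mk (inclDiv h m u))) : Additive (Kum Kb (FK M) m)) =
      Additive.ofMul (Kum.mk (inclDiv h m ((u ^ q)⁻¹))) := by
    rw [← ofMul_pow, ← ofMul_inv, ← map_pow, ← map_inv]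
    refine congrArg (fun v => Additive.ofMul (Kum.mk v)) (Subtype.ext ?_)
    show (inclUnits h (u : (FK N)ˣ) ^ q)⁻¹ =
      inclUnits h (((u ^ q)⁻¹ : pDivUnits Kb (FK N) m) : (FK N)ˣ)
    rw [Subgroup.coe_inv, Subgroup.coe_pow, map_inv, map_pow]
  rw [hpow] at key
  have key' := mk_eq_of_mk_inclDiv_eq h hcop (Additive.ofMul.injective key)
  rw [autEnd_mk, gal_mk, ← ofMul_pow, ← ofMul_inv, ← map_pow, ← map_inv]
  exact congrArg Additive.ofMul key'

/-- **`φ ∘ W_q = -q` at all levels from the auxiliary levels.** -/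
theorem frobWAt_of_aux
    (hAux : ∀ (N : ℕ) [NeZero N] (q m : ℕ) (hN : ExactDvd q N), ¬ q ∣ m →
      (q = 2 → 3 ∣ N) → (q = 3 → 2 ∣ N) → FrobWAt hN m)
    (N : ℕ) [NeZero N] (q m : ℕ) (hN : ExactDvd q N) (hqm : ¬ q ∣ m) : FrobWAt hN m := by
  by_cases h2 : q = 2
  · subst h2
    obtain ⟨h1, h1'⟩ := exactly_dvd_lcm Nat.prime_two Nat.prime_three (by decide) hN.dvd hN.not_sq
    have hM : ExactDvd 2 (Nat.lcm 3 N) := ⟨Nat.prime_two, h1, h1'⟩
    exact frobWAt_of_dvd (Nat.dvd_lcm_right 3 N) (coprime_relfinrank_lcm_three N hqm) hN hM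
      (hAux (Nat.lcm 3 N) 2 m hM hqm (fun _ => Nat.dvd_lcm_left 3 N)
        (fun h32 => absurd h32 (by decide)))
  by_cases h3 : q = 3
  · subst h3
    obtain ⟨h1, h1'⟩ := exactly_dvd_lcm Nat.prime_three Nat.prime_two (by decide) hN.dvd hN.not_sq
    have hM : ExactDvd 3 (Nat.lcm 2 N) := ⟨Nat.prime_three, h1, h1'⟩
    exact frobWAt_of_dvd (Nat.dvd_lcm_right 2 N) (coprime_relfinrank_lcm_two N hqm) hN hM
      (hAux (Nat.lcm 2 N) 3 m hM hqm (fun h32 => absurd h32 (by decide))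
        (fun _ => Nat.dvd_lcm_left 2 N))
  · exact hAux N q m hN hqm (fun h => absurd h h2) (fun h => absurd h h3)

/-- **`φ ∘ W_q = -q` at the auxiliary levels** (from `frobW_mul` and `Modular.fibreFacts`). -/
theorem frobWAt_aux :
    ∀ (N : ℕ) [NeZero N] (q m : ℕ) (hN : ExactDvd q N), ¬ q ∣ m →
      (q = 2 → 3 ∣ N) → (q = 3 → 2 ∣ N) → FrobWAt hN m := by
  intro N _ q m hN hqm h2 h3 A hA φ hφ x hx1 hx2
  have hq : q.Prime := hN.prime
  have hqN : q ∣ N := hN.dvd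
  obtain ⟨N', rfl⟩ := exists_eq_mul_left_of_dvd hqN
  haveI : Fact q.Prime := ⟨hq⟩
  haveI : NeZero q := ⟨hq.ne_zero⟩
  have hN'0 : N' ≠ 0 := fun h0 => NeZero.ne (N' * q) (by rw [h0, zero_mul])
  haveI : NeZero N' := ⟨hN'0⟩
  have hqN' : ¬ q ∣ N' := not_dvd_good N' hN
  have hmk : ((m : ℕ) : IsLocalRing.ResidueField A) ≠ 0 := by
    haveI : CharP (IsLocalRing.ResidueField A) q :=
      Fermat.Agent.GJ.J1.Val.charP_residue A hq hA
    rw [Ne, CharP.cast_eq_zero_iff (IsLocalRing.ResidueField A) q]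
    exact hqm
  have h2' : q = 2 → 3 ∣ N' := by
    intro e
    have h23 := h2 e
    rw [e] at h23
    exact (Nat.Coprime.dvd_of_dvd_mul_right (by norm_num) h23)
  have h3' : q = 3 → 2 ∣ N' := by
    intro e
    have h32 := h3 e
    rw [e] at h32
    exact (Nat.Coprime.dvd_of_dvd_mul_right (by norm_num) h32)
  obtain ⟨hDed, hCf, hrange⟩ := fibreFacts N' q A hN hA hqN' h2' h3'
  exact frobW_mul N' q A hN hA hqN' h2' h3' hmk hCf hrange hφ x hx1 hx2

/-- **`φ ∘ W_q = -q` on the toric part, everywhere**: for every level `N`, every prime `q ∥ N`,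
every modulus `m` prime to `q`, every place `A` of `ℚ̄` over `q` and every Frobenius lift `φ` at
`A`:  `gal φ (W_q x) = -(q • x)` for `x ∈ ker r₁ ∩ ker r₂ ⊆ Kum_m(F_N)`. -/
theorem frobW_all (N : ℕ) [NeZero N] (q : ℕ) (h : ExactDvd q N) (m : ℕ) (hqm : ¬ q ∣ m)
    (A : ValuationSubring Qb) (hA : A.LiesOverPrime q) (φ : GQ) (hφ : A.IsFrobeniusAt φ q)
    (x : Additive (Kum Kb (FK N) m)) (hx1 : x ∈ kerRed N A m) (hx2 : x ∈ kerRed₂ h A m) :
    gal N m φ (autEnd (wAut h : FK N ≃ₐ[Kb] FK N) m x) = -(q • x) :=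
  frobWAt_of_aux frobWAt_aux N q m h hqm A hA φ hφ x hx1 hx2

/-- `W_q` exchanges `ker r₁` and `ker r₂` -/
theorem autEnd_wAut_mem_kerRed₂ {q : ℕ} (h : ExactDvd q N) {A : ValuationSubring Qb} {m : ℕ}
    {x : Additive (Kum Kb (FK N) m)} (hx : x ∈ kerRed N A m) :
    autEnd (wAut h : FK N ≃ₐ[Kb] FK N) m x ∈ kerRed₂ h A m := by
  rw [mem_kerRed₂_iff, autEnd_wAut_autEnd_wAut]
  exact hx

/-- **`φ = -q ∘ W_q` on the toric part** (the same statement read at `W x`). -/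
theorem frobW_all' (N : ℕ) [NeZero N] (q : ℕ) (h : ExactDvd q N) (m : ℕ) (hqm : ¬ q ∣ m)
    (A : ValuationSubring Qb) (hA : A.LiesOverPrime q) (φ : GQ) (hφ : A.IsFrobeniusAt φ q)
    (x : Additive (Kum Kb (FK N) m)) (hx1 : x ∈ kerRed N A m) (hx2 : x ∈ kerRed₂ h A m) :
    gal N m φ x = -(q • autEnd (wAut h : FK N ≃ₐ[Kb] FK N) m x) := by
  have key := frobW_all N q h m hqm A hA φ hφ (autEnd (wAut h : FK N ≃ₐ[Kb] FK N) m x)
    ((mem_kerRed₂_iff h m x).1 hx2) (autEnd_wAut_mem_kerRed₂ h hx1)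
  rwa [autEnd_wAut_autEnd_wAut] at key

/-- on the `W_q = 1` part of the toric part, Frobenius is `-q` -/
theorem frob_eq_neg_of_w (N : ℕ) [NeZero N] (q : ℕ) (h : ExactDvd q N) (m : ℕ) (hqm : ¬ q ∣ m)
    (A : ValuationSubring Qb) (hA : A.LiesOverPrime q) (φ : GQ) (hφ : A.IsFrobeniusAt φ q)
    (x : Additive (Kum Kb (FK N) m)) (hx1 : x ∈ kerRed N A m) (hx2 : x ∈ kerRed₂ h A m)
    (hw : autEnd (wAut h : FK N ≃ₐ[Kb] FK N) m x = x) : gal N m φ x = -(q • x) := by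
  rw [frobW_all' N q h m hqm A hA φ hφ x hx1 hx2, hw]

/-- on the `W_q = -1` part of the toric part, Frobenius is `q` -/
theorem frob_eq_of_w_neg (N : ℕ) [NeZero N] (q : ℕ) (h : ExactDvd q N) (m : ℕ) (hqm : ¬ q ∣ m)
    (A : ValuationSubring Qb) (hA : A.LiesOverPrime q) (φ : GQ) (hφ : A.IsFrobeniusAt φ q)
    (x : Additive (Kum Kb (FK N) m)) (hx1 : x ∈ kerRed N A m) (hx2 : x ∈ kerRed₂ h A m)
    (hw : autEnd (wAut h : FK N ≃ₐ[Kb] FK N) m x = -x) : gal N m φ x = q • x := by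
  rw [frobW_all' N q h m hqm A hA φ hφ x hx1 hx2, hw, smul_neg, neg_neg]

end Fermat.Agent.GB.A1
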